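import Mathlib.AlgebraicGeometry.Geometrically.Integral
import Fermat.Agent.BaseChangeFF.Tensor

/-!
# Integral schemes over an algebraically closed field are geometrically integral
-/

set_option autoImplicit false

universe u

open CategoryTheory CategoryTheory.Limits TopologicalSpace AlgebraicGeometry
open scoped TensorProduct

namespace Fermat.Agent.JNa

/-- tensor product of domains over an algebraically closed field -/
theorem isDomain_tensorProduct (k A B : Type*) [Field k] [IsAlgClosed k] [CommRing A] [IsDomain A]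
    [CommRing B] [IsDomain B] [Algebra k A] [Algebra k B] : IsDomain (A ⊗[k] B) := by
  have h1 : IsDomain (FractionRing A ⊗[k] FractionRing B) :=
    Fermat.Agent.BaseChangeFF.isDomain_tensor k (FractionRing A)
  let f : A →ₐ[k] FractionRing A := IsScalarTower.toAlgHom k A (FractionRing A)
  let g : B →ₐ[k] FractionRing B := IsScalarTower.toAlgHom k B (FractionRing B)
  have hinj : Function.Injective (Algebra.TensorProduct.map f g) := by
    have := TensorProduct.map_injective_of_flat_flat (f.toLinearMap) (g.toLinearMap)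
      (IsFractionRing.injective A (FractionRing A)) (IsFractionRing.injective B (FractionRing B))
    exact this
  exact hinj.isDomain (Algebra.TensorProduct.map f g).toRingHom

/-- a scheme covered by integral open subschemes that intersect pairwise is integral -/
theorem isIntegral_of_openCover {P : Scheme.{u}} (𝒱 : P.OpenCover)
    (hi : ∀ i, Nonempty (𝒱.X i) → IsIntegral (𝒱.X i))
    (h : ∀ i j, Nonempty (𝒱.X i) → Nonempty (𝒱.X j) →
      (Set.range (𝒱.f i) ∩ Set.range (𝒱.f j)).Nonempty) [hP : Nonempty P] :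
    IsIntegral P := by
  have hirr : ∀ i, Nonempty (𝒱.X i) → IsPreirreducible (Set.range (𝒱.f i)) := fun i hi' => by
    have := hi i hi'
    rw [← Set.image_univ]
    exact (IrreducibleSpace.isIrreducible_univ (𝒱.X i)).isPreirreducible.image _
      (𝒱.f i).continuous.continuousOn
  have hopen : ∀ i, IsOpen (Set.range (𝒱.f i)) := fun i => (𝒱.f i).isOpenEmbedding.isOpen_range
  have h1 : IrreducibleSpace P := by
    refine { isPreirreducible_univ := ?_, toNonempty := hP }
    rintro W₁ W₂ hW₁ hW₂ ⟨x, -, hx⟩ ⟨y, -, hy⟩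
    obtain ⟨i, a, rfl⟩ := 𝒱.exists_eq x
    obtain ⟨j, b, rfl⟩ := 𝒱.exists_eq y
    -- `W₂` meets `range i ∩ range j`
    obtain ⟨z, hzj, hz2, hzi⟩ := hirr j ⟨b⟩ W₂ (Set.range (𝒱.f i)) hW₂ (hopen i) ⟨_, ⟨b, rfl⟩, hy⟩
      (by obtain ⟨z, h1, h2⟩ := h i j ⟨a⟩ ⟨b⟩; exact ⟨z, h2, h1⟩)
    obtain ⟨w, hwi, hw1, hw2⟩ := hirr i ⟨a⟩ W₁ W₂ hW₁ hW₂ ⟨_, ⟨a, rfl⟩, hx⟩ ⟨z, hzi, hz2⟩
    exact ⟨w, trivial, hw1, hw2⟩
  have h2 : AlgebraicGeometry.IsReduced P := by
    apply +allowSynthFailures isReduced_of_isReduced_stalk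
    intro x
    obtain ⟨i, y, rfl⟩ := 𝒱.exists_eq x
    have := hi i ⟨y⟩
    exact isReduced_of_injective ((𝒱.f i).stalkMap y).hom
      (asIso ((𝒱.f i).stalkMap y)).commRingCatIsoToRingEquiv.injective
  exact isIntegral_of_irreducibleSpace_of_isReduced P

/-- the product of two affine schemes over `k` -/
theorem isIntegral_pullback_Spec {k : Type u} [Field k] [IsAlgClosed k] {R S : CommRingCat.{u}}
    [IsDomain R] [IsDomain S] (f : Spec R ⟶ Spec (CommRingCat.of k))
    (g : Spec S ⟶ Spec (CommRingCat.of k)) : IsIntegral (pullback f g) := by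
  obtain ⟨φ, rfl⟩ := Spec.map_surjective f
  obtain ⟨ψ, rfl⟩ := Spec.map_surjective g
  algebraize [φ.hom, ψ.hom]
  have h1 : IsDomain (R ⊗[k] S) := isDomain_tensorProduct k R S
  have h2 : IsIntegral (Spec (CommRingCat.of (R ⊗[k] S))) := inferInstance
  exact IsIntegral.of_isIso (pullbackSpecIso k R S).inv

/-- **Product of integral schemes over an algebraically closed field** (one factor affine). -/
theorem isIntegral_pullback_right {k : Type u} [Field k] [IsAlgClosed k] {X : Scheme.{u}}
    {S : CommRingCat.{u}} [IsDomain S] (f : X ⟶ Spec (CommRingCat.of k))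
    (g : Spec S ⟶ Spec (CommRingCat.of k)) [IsIntegral X] : IsIntegral (pullback f g) := by
  have hsurj : Surjective g := ⟨fun x => ⟨Nonempty.some inferInstance, Subsingleton.elim _ _⟩⟩
  have hsurj' : Surjective (pullback.fst f g) := inferInstance
  have hne : Nonempty (pullback f g : Scheme) := by
    obtain ⟨z, _⟩ := (pullback.fst f g).surjective (Nonempty.some inferInstance : X)
    exact ⟨z⟩
  let 𝒲 := X.affineOpenCover
  let 𝒰 := 𝒲.openCover
  refine isIntegral_of_openCover (𝒰.pullback₁ (pullback.fst f g)) ?_ ?_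
  · intro i hi
    have hi' : Nonempty (pullback (pullback.fst f g) (𝒲.f i) : Scheme) := hi
    have hne𝒰 : Nonempty (Spec (𝒲.X i) : Scheme) :=
      hi'.map (pullback.snd (pullback.fst f g) (𝒲.f i))
    have h1 : IsIntegral (Spec (𝒲.X i)) := isIntegral_of_isOpenImmersion (𝒲.f i)
    have h1' : IsDomain (𝒲.X i) := (affine_isIntegral_iff _).1 h1
    have h2 : IsIntegral (pullback (𝒲.f i ≫ f) g) := isIntegral_pullback_Spec (𝒲.f i ≫ f) g
    have e : pullback (𝒲.f i ≫ f) g ≅ pullback (pullback.fst f g) (𝒲.f i) :=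
      (pullbackRightPullbackFstIso f g (𝒲.f i)).symm ≪≫ pullbackSymmetry _ _
    exact IsIntegral.of_isIso e.hom
  · intro i j hi hj
    have hi' : Nonempty (pullback (pullback.fst f g) (𝒲.f i) : Scheme) := hi
    have hj' : Nonempty (pullback (pullback.fst f g) (𝒲.f j) : Scheme) := hj
    obtain ⟨a⟩ : Nonempty (Spec (𝒲.X i) : Scheme) :=
      hi'.map (pullback.snd (pullback.fst f g) (𝒲.f i))
    obtain ⟨b⟩ : Nonempty (Spec (𝒲.X j) : Scheme) :=
      hj'.map (pullback.snd (pullback.fst f g) (𝒲.f j))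
    obtain ⟨x, hx1, hx2⟩ := nonempty_preirreducible_inter (X := X)
      (𝒲.f i).isOpenEmbedding.isOpen_range (𝒲.f j).isOpenEmbedding.isOpen_range
      ⟨_, a, rfl⟩ ⟨_, b, rfl⟩
    obtain ⟨z, hz⟩ := (pullback.fst f g).surjective x
    refine ⟨z, ?_, ?_⟩
    · show z ∈ Set.range (pullback.fst (pullback.fst f g) (𝒲.f i))
      rw [Scheme.Pullback.range_fst, Set.mem_preimage, hz]
      exact hx1
    · show z ∈ Set.range (pullback.fst (pullback.fst f g) (𝒲.f j))
      rw [Scheme.Pullback.range_fst, Set.mem_preimage, hz]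
      exact hx2

/-- **Geometric integrality over an algebraically closed field.** -/
theorem geometricallyIntegral_of_isAlgClosed {k : Type u} [Field k] [IsAlgClosed k]
    {X : Scheme.{u}} (f : X ⟶ Spec (CommRingCat.of k)) [IsIntegral X] :
    GeometricallyIntegral f := by
  refine ⟨fun K _ s Z fst snd h => ?_⟩
  have h1 : IsIntegral (pullback f s) := isIntegral_pullback_right f s
  exact IsIntegral.of_isIso h.isoPullback.inv

/-- **Product of integral schemes over an algebraically closed field.** -/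
theorem isIntegral_pullback {k : Type u} [Field k] [IsAlgClosed k] {X Y : Scheme.{u}}
    (f : X ⟶ Spec (CommRingCat.of k)) (g : Y ⟶ Spec (CommRingCat.of k)) [IsIntegral X]
    [IsIntegral Y] : IsIntegral (pullback f g) := by
  have hsurj : Surjective g := ⟨fun x => ⟨Nonempty.some inferInstance, Subsingleton.elim _ _⟩⟩
  have hsurj' : Surjective (pullback.fst f g) := inferInstance
  have hne : Nonempty (pullback f g : Scheme) := by
    obtain ⟨z, _⟩ := (pullback.fst f g).surjective (Nonempty.some inferInstance : X)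
    exact ⟨z⟩
  let 𝒲 := X.affineOpenCover
  let 𝒰 := 𝒲.openCover
  refine isIntegral_of_openCover (𝒰.pullback₁ (pullback.fst f g)) ?_ ?_
  · intro i hi
    have hi' : Nonempty (pullback (pullback.fst f g) (𝒲.f i) : Scheme) := hi
    have hne𝒰 : Nonempty (Spec (𝒲.X i) : Scheme) :=
      hi'.map (pullback.snd (pullback.fst f g) (𝒲.f i))
    have h1 : IsIntegral (Spec (𝒲.X i)) := isIntegral_of_isOpenImmersion (𝒲.f i)
    have h1' : IsDomain (𝒲.X i) := (affine_isIntegral_iff _).1 h1
    have h2 : IsIntegral (pullback g (𝒲.f i ≫ f)) := isIntegral_pullback_right g (𝒲.f i ≫ f)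
    have e : pullback g (𝒲.f i ≫ f) ≅ pullback (pullback.fst f g) (𝒲.f i) :=
      pullbackSymmetry _ _ ≪≫ (pullbackRightPullbackFstIso f g (𝒲.f i)).symm ≪≫
        pullbackSymmetry _ _
    exact IsIntegral.of_isIso e.hom
  · intro i j hi hj
    have hi' : Nonempty (pullback (pullback.fst f g) (𝒲.f i) : Scheme) := hi
    have hj' : Nonempty (pullback (pullback.fst f g) (𝒲.f j) : Scheme) := hj
    obtain ⟨a⟩ : Nonempty (Spec (𝒲.X i) : Scheme) :=
      hi'.map (pullback.snd (pullback.fst f g) (𝒲.f i))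
    obtain ⟨b⟩ : Nonempty (Spec (𝒲.X j) : Scheme) :=
      hj'.map (pullback.snd (pullback.fst f g) (𝒲.f j))
    obtain ⟨x, hx1, hx2⟩ := nonempty_preirreducible_inter (X := X)
      (𝒲.f i).isOpenEmbedding.isOpen_range (𝒲.f j).isOpenEmbedding.isOpen_range
      ⟨_, a, rfl⟩ ⟨_, b, rfl⟩
    obtain ⟨z, hz⟩ := (pullback.fst f g).surjective x
    refine ⟨z, ?_, ?_⟩
    · show z ∈ Set.range (pullback.fst (pullback.fst f g) (𝒲.f i))
      rw [Scheme.Pullback.range_fst, Set.mem_preimage, hz]
      exact hx1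
    · show z ∈ Set.range (pullback.fst (pullback.fst f g) (𝒲.f j))
      rw [Scheme.Pullback.range_fst, Set.mem_preimage, hz]
      exact hx2

end Fermat.Agent.JNa
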