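import Fermat.Agent.AVC.Final
import Fermat.Agent.JNa.GI

/-!
# Connected components of smooth schemes over a field
-/

set_option autoImplicit false

noncomputable section

universe u

open CategoryTheory CategoryTheory.Limits AlgebraicGeometry TopologicalSpace
open Fermat.Agent.AVS Fermat.Agent.AVC

namespace Fermat.Agent.JNa

variable {K : Type u} [Field K] {A : Scheme.{u}} (f : A ⟶ Spec (CommRingCat.of K))

theorem exists_chart_smooth [Smooth f] (ξ : A) :
    ∃ (g : ℕ) (V : A.Opens), IsAffineOpen V ∧ ξ ∈ V ∧
      (kSec f V).IsStandardSmoothOfRelativeDimension g := by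
  obtain ⟨U, hU, V, hV, hξ, e, h⟩ := Smooth.exists_isStandardSmooth (f := f) ξ
  have hUtop : U = ⊤ := by
    ext y
    have hy : y = f ξ := Subsingleton.elim _ _
    simp only [TopologicalSpace.Opens.coe_top, Set.mem_univ, iff_true, hy]
    exact e hξ
  subst hUtop
  let _ := (f.appLE ⊤ V e).hom.toAlgebra
  have h0 : Algebra.IsStandardSmooth Γ(Spec (CommRingCat.of K), ⊤) Γ(A, V) := h
  obtain ⟨ι, σ, hσ, hι, ⟨P⟩⟩ := h0.out
  have h' : (f.appLE ⊤ V e).hom.IsStandardSmoothOfRelativeDimension P.dimension :=
    P.isStandardSmoothOfRelativeDimension rfl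
  refine ⟨P.dimension, V, hV, hξ, ?_⟩
  have h1 : kSec f V =
      (f.appLE ⊤ V e).hom.comp (Scheme.ΓSpecIso (CommRingCat.of K)).inv.hom := by
    rw [kSec, ← CommRingCat.hom_comp]
    rfl
  rw [h1]
  have h2 : (Scheme.ΓSpecIso (CommRingCat.of K)).inv.hom.IsStandardSmoothOfRelativeDimension 0 :=
    RingHom.IsStandardSmoothOfRelativeDimension.equiv
      (Scheme.ΓSpecIso (CommRingCat.of K)).symm.commRingCatIsoToRingEquiv
  have h3 := RingHom.IsStandardSmoothOfRelativeDimension.comp h' h2
  rwa [add_zero] at h3

/-- every point of a smooth scheme over a field has an affine neighbourhood with sections a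
domain. -/
theorem exists_domain_nhd_smooth [Smooth f] (ξ : A) :
    ∃ W : A.Opens, IsAffineOpen W ∧ ξ ∈ W ∧ IsDomain Γ(A, W) := by
  obtain ⟨g, V, hV, hξ, hs⟩ := exists_chart_smooth f ξ
  let _ := (kSec f V).toAlgebra
  have : Algebra.IsStandardSmoothOfRelativeDimension g K Γ(A, V) := hs
  obtain ⟨h, hh, hd⟩ := (ringFacts K g).r1 Γ(A, V) (chartPrime hV hξ)
  refine ⟨A.basicOpen h, hV.basicOpen h, ?_, ?_⟩
  · rw [Scheme.mem_basicOpen _ _ _ hξ, ← stalkEquiv_algebraMap hV hξ]
    exact (IsLocalization.map_units (Localization.AtPrime (chartPrime hV hξ))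
      (⟨h, hh⟩ : (chartPrime hV hξ).primeCompl)).map (stalkEquiv hV hξ)
  · have := hV.isLocalization_basicOpen h
    exact (IsLocalization.algEquiv (Submonoid.powers h) Γ(A, A.basicOpen h)
      (Localization.Away h)).toMulEquiv.isDomain _

theorem isDomain_stalk_smooth [Smooth f] (ξ : A) : IsDomain (A.presheaf.stalk ξ) := by
  obtain ⟨W, hW, hξ, hd⟩ := exists_domain_nhd_smooth f ξ
  have h1 : IsDomain (Localization.AtPrime (chartPrime hW hξ)) :=
    IsLocalization.isDomain_localization (Ideal.primeCompl_le_nonZeroDivisors _)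
  exact (stalkEquiv hW hξ).symm.toMulEquiv.isDomain _

/-- a connected smooth scheme over a field is integral. -/
theorem isIntegral_of_smooth [Smooth f] [ConnectedSpace A] : IsIntegral A := by
  have hirr : IrreducibleSpace A := irreducibleSpace_of_connected_of_locally (fun ξ => by
    obtain ⟨W, hW, hξ, hd⟩ := exists_domain_nhd_smooth f ξ
    exact ⟨W, W.isOpen, hξ, isPreirreducible_of_isDomain hW⟩)
  have : ∀ ξ : A, _root_.IsReduced (A.presheaf.stalk ξ) := fun ξ => by
    have := isDomain_stalk_smooth f ξ
    infer_instance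
  have : AlgebraicGeometry.IsReduced A := isReduced_of_isReduced_stalk A
  exact isIntegral_of_irreducibleSpace_of_isReduced A

/-- connected components of a smooth scheme over a field are open -/
theorem isOpen_connectedComponent_smooth [Smooth f] (x₀ : A) :
    IsOpen (connectedComponent x₀) := by
  rw [isOpen_iff_forall_mem_open]
  intro x hx
  obtain ⟨W, hW, hξ, hd⟩ := exists_domain_nhd_smooth f x
  refine ⟨W, ?_, W.isOpen, hξ⟩
  have h1 : IsPreirreducible (W : Set A) := isPreirreducible_of_isDomain hW
  have h2 := h1.isPreconnected.subset_connectedComponent hξ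
  rwa [← connectedComponent_eq hx] at h2

/-- the connected component of a point as an open subscheme -/
def compOpen [Smooth f] (x₀ : A) : A.Opens :=
  ⟨connectedComponent x₀, isOpen_connectedComponent_smooth f x₀⟩

theorem coe_compOpen [Smooth f] (x₀ : A) : (compOpen f x₀ : Set A) = connectedComponent x₀ := rfl

theorem mem_compOpen [Smooth f] (x₀ : A) : x₀ ∈ compOpen f x₀ := mem_connectedComponent

instance connectedSpace_compOpen [Smooth f] (x₀ : A) : ConnectedSpace (compOpen f x₀) :=
  isConnected_iff_connectedSpace.1 isConnected_connectedComponent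

instance isIntegral_compOpen [Smooth f] (x₀ : A) : IsIntegral (compOpen f x₀).toScheme := by
  have : ConnectedSpace (compOpen f x₀).toScheme := connectedSpace_compOpen f x₀
  exact isIntegral_of_smooth ((compOpen f x₀).ι ≫ f)

/-- over an algebraically closed field the connected component is geometrically integral. -/
instance geometricallyIntegral_compOpen [IsAlgClosed K] [Smooth f] (x₀ : A) :
    GeometricallyIntegral ((compOpen f x₀).ι ≫ f) :=
  geometricallyIntegral_of_isAlgClosed _

/-- a morphism from a connected scheme that meets the component factors through it. -/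
theorem range_subset_compOpen [Smooth f] (x₀ : A) {T : Scheme.{u}} [PreconnectedSpace T]
    (g : T ⟶ A) (t₀ : T) (h : g t₀ ∈ compOpen f x₀) (t : T) : g t ∈ compOpen f x₀ := by
  have h1 : _root_.IsPreconnected (Set.range g) := isPreconnected_range g.continuous
  have h2 := h1.subset_connectedComponent (x := g t₀) ⟨t₀, rfl⟩
  have h3 : connectedComponent x₀ = connectedComponent (g t₀) := connectedComponent_eq h
  show g t ∈ connectedComponent x₀
  rw [h3]
  exact h2 ⟨t, rfl⟩

/-- a connected set of points -/
theorem mem_compOpen_of_isPreconnected [Smooth f] (x₀ : A) {S : Set A} (hS : _root_.IsPreconnected S)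
    {x : A} (hx : x ∈ S) (hx' : x ∈ compOpen f x₀) {y : A} (hy : y ∈ S) : y ∈ compOpen f x₀ := by
  have h3 : connectedComponent x₀ = connectedComponent x := connectedComponent_eq hx'
  show y ∈ connectedComponent x₀
  rw [h3]
  exact hS.subset_connectedComponent hx hy

/-- the identity component -/
theorem exists_idComp {X : Scheme.{u}} (p : X ⟶ Spec (CommRingCat.of K)) [Smooth p] (x₀ : X) :
    ∃ U : X.Opens, x₀ ∈ U ∧ IsClosed (U : Set X) ∧ IsIntegral (U : Scheme) :=
  ⟨compOpen p x₀, mem_compOpen p x₀, isClosed_connectedComponent, isIntegral_compOpen p x₀⟩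

end Fermat.Agent.JNa

end
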