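import Fermat.Prelude.Def_AlgebraicGeometry_RelativeGroupLaw

/-!
# Elementary lemmas on relative group laws
-/

set_option autoImplicit false

noncomputable section

universe u

open CategoryTheory CategoryTheory.Limits AlgebraicGeometry NeronModelInfra
  GoodReductionJacobian

namespace Fermat.Agent.JNa

variable {k : Type u} [CommRing k] {A : Scheme.{u}} {p : A ⟶ Spec (CommRingCat.of k)}
  (L : RelativeGroupLaw k p) {T T' : Scheme.{u}} {t : T ⟶ Spec (CommRingCat.of k)}
  {t' : T' ⟶ Spec (CommRingCat.of k)} (ψ : T' ⟶ T) (hψ : ψ ≫ t = t')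

include L in
theorem eq_one_of_mul_self {e : SchemeHomOver t p} (h : L.mul t e e = e) : e = L.one t := by
  rw [← L.one_mul t e, ← L.inv_mul_cancel t e, L.mul_assoc, h, L.inv_mul_cancel]

theorem comp_one' : schemeHomOverComp ψ hψ (L.one t) = L.one t' := by
  apply eq_one_of_mul_self L
  rw [← L.mul_natural, L.one_mul]

theorem inv_unique {x y : SchemeHomOver t p} (h : L.mul t y x = L.one t) : y = L.inv t x := by
  let _ := L.pointGroup t
  exact eq_inv_of_mul_eq_one_left h

theorem comp_inv' (x : SchemeHomOver t p) :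
    schemeHomOverComp ψ hψ (L.inv t x) = L.inv t' (schemeHomOverComp ψ hψ x) := by
  apply inv_unique L
  rw [← L.mul_natural, L.inv_mul_cancel, comp_one']

theorem mul_inv_cancel_left' (x y : SchemeHomOver t p) :
    L.mul t x (L.mul t (L.inv t x) y) = y := by
  let _ := L.pointGroup t
  exact mul_inv_cancel_left x y

/-- `(γ x⁻¹)⁻¹ γ = x` -/
theorem inv_mul_of_div (x y : SchemeHomOver t p) :
    L.mul t (L.inv t (L.mul t y (L.inv t x))) y = x := by
  let _ := L.pointGroup t
  show (y * x⁻¹)⁻¹ * y = x
  group

theorem inv_one' : L.inv t (L.one t) = L.one t := by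
  let _ := L.pointGroup t
  exact _root_.inv_one

end Fermat.Agent.JNa

end
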