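import Fermat.Agent.JNa.GI
import Fermat.Agent.JNa.Law

/-!
# The identity component of a smooth group scheme over an algebraically closed field is
quasi-compact
-/

set_option autoImplicit false

noncomputable section

universe u

open CategoryTheory CategoryTheory.Limits AlgebraicGeometry NeronModelInfra TopologicalSpace
  GoodReductionJacobian

namespace Fermat.Agent.JNa

/-- a connected scheme meeting a clopen set maps into it -/
theorem mem_of_isClopen {T X : Scheme.{u}} [PreconnectedSpace T] (g : T ⟶ X) (U : X.Opens)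
    (hc : IsClosed (U : Set X)) (t₀ : T) (h : g t₀ ∈ U) (t : T) : g t ∈ U := by
  have h1 : IsClopen (g ⁻¹' (U : Set X)) := ⟨hc.preimage g.continuous, U.isOpen.preimage g.continuous⟩
  have h2 : g ⁻¹' (U : Set X) = Set.univ := h1.eq_univ ⟨t₀, h⟩
  have : t ∈ g ⁻¹' (U : Set X) := by rw [h2]; trivial
  exact this

/-- lift of a morphism with image in an open set -/
def liftU {X : Scheme.{u}} (U : X.Opens) {T : Scheme.{u}} (g : T ⟶ X) (h : ∀ t, g t ∈ U) : T ⟶ U :=
  IsOpenImmersion.lift U.ι g (by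
    rintro _ ⟨t, rfl⟩
    rw [Scheme.Opens.range_ι]
    exact h t)

@[reassoc (attr := simp)]
theorem liftU_ι {X : Scheme.{u}} (U : X.Opens) {T : Scheme.{u}} (g : T ⟶ X) (h : ∀ t, g t ∈ U) : liftU U g h ≫ U.ι = g :=
  IsOpenImmersion.lift_fac _ _ _

variable {k : Type u} [Field k] [IsAlgClosed k] {X : Scheme.{u}}
  (p : X ⟶ Spec (CommRingCat.of k)) (L : RelativeGroupLaw k p) (U : X.Opens)
  (hc : IsClosed (U : Set X)) [hU : IsIntegral (U : Scheme)]
  (h0 : ∀ x, (L.one (𝟙 _)).1 x ∈ U)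

omit [IsAlgClosed k] hU in
include hc in
theorem mem_of_comp {T S : Scheme.{u}} [PreconnectedSpace T] (g : T ⟶ X) (ψ : S ⟶ T)
    (s : S) (h : (ψ ≫ g) s ∈ U) (t : T) : g t ∈ U :=
  mem_of_isClopen g U hc (ψ s) (by rwa [Scheme.Hom.comp_apply] at h) t

section Point

variable (κ : Type u) [Field κ] (g : Spec (CommRingCat.of κ) ⟶ (U : Scheme))

/-- `U_κ` -/
abbrev XK : Scheme.{u} := pullback (U.ι ≫ p) (g ≫ U.ι ≫ p)

/-- the structure map -/
abbrev tK : XK p U κ g ⟶ Spec (CommRingCat.of k) := pullback.fst _ _ ≫ U.ι ≫ p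

/-- the tautological point -/
def xK : SchemeHomOver (tK p U κ g) p := ⟨pullback.fst _ _ ≫ U.ι, by simp⟩

/-- the constant point -/
def gK : SchemeHomOver (tK p U κ g) p :=
  ⟨pullback.snd _ _ ≫ g ≫ U.ι, by simp only [Category.assoc]; exact pullback.condition.symm⟩

instance isIntegral_XK : IsIntegral (XK p U κ g) :=
  isIntegral_pullback (U.ι ≫ p) (g ≫ U.ι ≫ p)

/-- `v = x⁻¹ γ` -/
def vK : SchemeHomOver (tK p U κ g) p :=
  L.mul _ (L.inv _ (xK p U κ g)) (gK p U κ g)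

/-- `w = γ x⁻¹` -/
def wK : SchemeHomOver (tK p U κ g) p :=
  L.mul _ (gK p U κ g) (L.inv _ (xK p U κ g))

omit [IsAlgClosed k] hU in
include h0 in
theorem one_mem {T : Scheme.{u}} (t : T ⟶ Spec (CommRingCat.of k)) (τ : T) :
    (L.one t).1 τ ∈ U := by
  have h := comp_one' L (t := 𝟙 _) (t' := t) t (Category.comp_id t)
  rw [← h, schemeHomOverComp_coe, Scheme.Hom.comp_apply]
  exact h0 _

/-- the point `(1, id)` of `U_κ` -/
def zK : Spec (CommRingCat.of κ) ⟶ XK p U κ g :=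
  pullback.lift (liftU U (L.one (g ≫ U.ι ≫ p)).1 (one_mem p L U h0 _)) (𝟙 _) (by
    rw [liftU_ι_assoc, (L.one (g ≫ U.ι ≫ p)).2, Category.id_comp])

omit [IsAlgClosed k] hU in
theorem zK_tK : zK p L U h0 κ g ≫ tK p U κ g = g ≫ U.ι ≫ p := by
  rw [tK, zK, pullback.lift_fst_assoc, liftU_ι_assoc, (L.one (g ≫ U.ι ≫ p)).2]

theorem zK_xK : schemeHomOverComp (zK p L U h0 κ g) (zK_tK p L U h0 κ g) (xK p U κ g) =
    L.one (g ≫ U.ι ≫ p) := by
  apply Subtype.ext
  rw [schemeHomOverComp_coe, xK, zK, pullback.lift_fst_assoc, liftU_ι]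

theorem zK_gK : (schemeHomOverComp (zK p L U h0 κ g) (zK_tK p L U h0 κ g) (gK p U κ g)).1 =
    g ≫ U.ι := by
  rw [schemeHomOverComp_coe, gK, zK, pullback.lift_snd_assoc, Category.id_comp]

include hc h0 in
theorem vK_mem (t : XK p U κ g) : (vK p L U κ g).1 t ∈ U := by
  refine mem_of_comp U hc _ (zK p L U h0 κ g) (IsLocalRing.closedPoint κ) ?_ t
  have h1 : (zK p L U h0 κ g ≫ (vK p L U κ g).1) = g ≫ U.ι := by
    rw [← zK_gK p L U h0 κ g, ← schemeHomOverComp_coe (zK p L U h0 κ g) (zK_tK p L U h0 κ g), vK,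
      L.mul_natural _ _ _ (zK_tK p L U h0 κ g), comp_inv' L, zK_xK, inv_one', L.one_mul]
  rw [h1, Scheme.Hom.comp_apply]
  exact (g _).2

include hc h0 in
theorem wK_mem (t : XK p U κ g) : (wK p L U κ g).1 t ∈ U := by
  refine mem_of_comp U hc _ (zK p L U h0 κ g) (IsLocalRing.closedPoint κ) ?_ t
  have h1 : (zK p L U h0 κ g ≫ (wK p L U κ g).1) = g ≫ U.ι := by
    rw [← zK_gK p L U h0 κ g, ← schemeHomOverComp_coe (zK p L U h0 κ g) (zK_tK p L U h0 κ g), wK,
      L.mul_natural _ _ _ (zK_tK p L U h0 κ g), comp_inv' L, zK_xK, inv_one', L.mul_one]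
  rw [h1, Scheme.Hom.comp_apply]
  exact (g _).2

/-- the morphism `v : U_κ → U` -/
def vU : XK p U κ g ⟶ (U : Scheme) := liftU U (vK p L U κ g).1 (vK_mem p L U hc h0 κ g)

/-- the automorphism `x ↦ γ x⁻¹` of `U_κ` -/
def ΦK : XK p U κ g ⟶ XK p U κ g :=
  pullback.lift (liftU U (wK p L U κ g).1 (wK_mem p L U hc h0 κ g)) (pullback.snd _ _) (by
    rw [liftU_ι_assoc, (wK p L U κ g).2]
    exact pullback.condition)

theorem ΦK_tK : ΦK p L U hc h0 κ g ≫ tK p U κ g = tK p U κ g := by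
  rw [tK, ΦK, pullback.lift_fst_assoc, liftU_ι_assoc, (wK p L U κ g).2]

theorem ΦK_v : ΦK p L U hc h0 κ g ≫ (vK p L U κ g).1 = (xK p U κ g).1 := by
  have hx : schemeHomOverComp (ΦK p L U hc h0 κ g) (ΦK_tK p L U hc h0 κ g) (xK p U κ g) =
      wK p L U κ g := by
    apply Subtype.ext
    rw [schemeHomOverComp_coe, xK, ΦK, pullback.lift_fst_assoc, liftU_ι]
  have hg : schemeHomOverComp (ΦK p L U hc h0 κ g) (ΦK_tK p L U hc h0 κ g) (gK p U κ g) =
      gK p U κ g := by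
    apply Subtype.ext
    rw [schemeHomOverComp_coe, gK, ΦK, pullback.lift_snd_assoc]
  rw [← schemeHomOverComp_coe (ΦK p L U hc h0 κ g) (ΦK_tK p L U hc h0 κ g), vK,
    L.mul_natural _ _ _ (ΦK_tK p L U hc h0 κ g), comp_inv' L, hx, hg, wK, inv_mul_of_div]

theorem ΦK_vU : ΦK p L U hc h0 κ g ≫ vU p L U hc h0 κ g = pullback.fst _ _ := by
  rw [← cancel_mono U.ι, Category.assoc, vU, liftU_ι, ΦK_v]
  rfl

instance surjective_fst_XK : Surjective (pullback.fst (U.ι ≫ p) (g ≫ U.ι ≫ p)) := by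
  have : Surjective (g ≫ U.ι ≫ p) :=
    ⟨fun x => ⟨IsLocalRing.closedPoint κ, Subsingleton.elim _ _⟩⟩
  infer_instance

/-- for every non-empty open `U'` of `U` there is a point `z` of `U_κ` with `x(z), v(z) ∈ U'`. -/
theorem exists_z (U' : (U : Scheme).Opens) (hne : (U' : Set (U : Scheme)).Nonempty) :
    ∃ z : XK p U κ g, (pullback.fst (U.ι ≫ p) (g ≫ U.ι ≫ p)) z ∈ U' ∧
      (vU p L U hc h0 κ g) z ∈ U' := by
  obtain ⟨u, hu⟩ := hne
  obtain ⟨z₁, hz₁⟩ := (pullback.fst (U.ι ≫ p) (g ≫ U.ι ≫ p)).surjective u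
  have h1 : IsOpen ((pullback.fst (U.ι ≫ p) (g ≫ U.ι ≫ p)) ⁻¹' (U' : Set (U : Scheme))) :=
    U'.isOpen.preimage (pullback.fst (U.ι ≫ p) (g ≫ U.ι ≫ p)).continuous
  have h2 : IsOpen ((vU p L U hc h0 κ g) ⁻¹' (U' : Set (U : Scheme))) :=
    U'.isOpen.preimage (vU p L U hc h0 κ g).continuous
  obtain ⟨z, hz1, hz2⟩ := nonempty_preirreducible_inter h1 h2 ⟨z₁, by
      show (pullback.fst (U.ι ≫ p) (g ≫ U.ι ≫ p)) z₁ ∈ U'
      rw [hz₁]; exact hu⟩ ⟨ΦK p L U hc h0 κ g z₁, by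
      show (vU p L U hc h0 κ g) (ΦK p L U hc h0 κ g z₁) ∈ U'
      rw [← Scheme.Hom.comp_apply, ΦK_vU, hz₁]; exact hu⟩
  exact ⟨z, hz1, hz2⟩

omit [IsAlgClosed k] hU in
theorem xK_mul_vK : L.mul _ (xK p U κ g) (vK p L U κ g) = gK p U κ g :=
  mul_inv_cancel_left' L _ _

end Point

section Final

variable (U' : (U : Scheme).Opens)

/-- structure map of `U'` -/
abbrev rU' : (U' : Scheme) ⟶ Spec (CommRingCat.of k) := U'.ι ≫ U.ι ≫ p

/-- `U' × U'` -/
abbrev YY : Scheme.{u} := pullback (rU' p U U') (rU' p U U')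

/-- first projection -/
def aY : SchemeHomOver (pullback.fst (rU' p U U') (rU' p U U') ≫ rU' p U U') p :=
  ⟨pullback.fst _ _ ≫ U'.ι ≫ U.ι, by simp only [Category.assoc]⟩

/-- second projection -/
def bY : SchemeHomOver (pullback.fst (rU' p U U') (rU' p U U') ≫ rU' p U U') p :=
  ⟨pullback.snd _ _ ≫ U'.ι ≫ U.ι, by
    simp only [Category.assoc]
    exact pullback.condition.symm⟩

/-- the multiplication `U' × U' → X` -/
def mY : SchemeHomOver (pullback.fst (rU' p U U') (rU' p U U') ≫ rU' p U U') p :=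
  L.mul _ (aY p U U') (bY p U U')

include hc h0 in
theorem exists_mY_eq (hne : (U' : Set (U : Scheme)).Nonempty) (j : (U : Scheme)) :
    ∃ y : YY p U U', (mY p L U U').1 y = U.ι j := by
  let κ : Type u := (U : Scheme).residueField j
  let g : Spec (CommRingCat.of κ) ⟶ (U : Scheme) := (U : Scheme).fromSpecResidueField j
  obtain ⟨z, hz1, hz2⟩ := exists_z p L U hc h0 κ g U' hne
  let κz : Type u := (XK p U κ g).residueField z
  let ζ : Spec (CommRingCat.of κz) ⟶ XK p U κ g := (XK p U κ g).fromSpecResidueField z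
  have hζ : ∀ c, ζ c = z := fun c => Scheme.fromSpecResidueField_apply z c
  let α : Spec (CommRingCat.of κz) ⟶ (U' : Scheme) :=
    liftU U' (ζ ≫ pullback.fst _ _) (fun c => by
      rw [Scheme.Hom.comp_apply, hζ]
      exact hz1)
  let β : Spec (CommRingCat.of κz) ⟶ (U' : Scheme) :=
    liftU U' (ζ ≫ vU p L U hc h0 κ g) (fun c => by
      rw [Scheme.Hom.comp_apply, hζ]
      exact hz2)
  have hα0 : α ≫ U'.ι = ζ ≫ pullback.fst _ _ := liftU_ι _ _ _
  have hβ0 : β ≫ U'.ι = ζ ≫ vU p L U hc h0 κ g := liftU_ι _ _ _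
  have hv0 : vU p L U hc h0 κ g ≫ U.ι = (vK p L U κ g).1 := liftU_ι _ _ _
  have hα : α ≫ U'.ι ≫ U.ι = ζ ≫ (xK p U κ g).1 := by
    rw [← Category.assoc, hα0, Category.assoc]
    rfl
  have hβ : β ≫ U'.ι ≫ U.ι = ζ ≫ (vK p L U κ g).1 := by
    rw [← Category.assoc, hβ0, Category.assoc, hv0]
  have hαr : α ≫ rU' p U U' = ζ ≫ tK p U κ g := by
    have := congrArg (· ≫ p) hα
    simp only [Category.assoc, (xK p U κ g).2] at this
    exact this
  have hβr : β ≫ rU' p U U' = ζ ≫ tK p U κ g := by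
    have := congrArg (· ≫ p) hβ
    simp only [Category.assoc, (vK p L U κ g).2] at this
    exact this
  let η : Spec (CommRingCat.of κz) ⟶ YY p U U' := pullback.lift α β (hαr.trans hβr.symm)
  have hη : η ≫ pullback.fst (rU' p U U') (rU' p U U') ≫ rU' p U U' = ζ ≫ tK p U κ g := by
    rw [pullback.lift_fst_assoc, hαr]
  have h1 : schemeHomOverComp η hη (mY p L U U') =
      schemeHomOverComp ζ rfl (gK p U κ g) := by
    have ha : schemeHomOverComp η hη (aY p U U') = schemeHomOverComp ζ rfl (xK p U κ g) := by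
      apply Subtype.ext
      simp only [schemeHomOverComp_coe, aY, η, pullback.lift_fst_assoc, hα]
    have hb : schemeHomOverComp η hη (bY p U U') = schemeHomOverComp ζ rfl (vK p L U κ g) := by
      apply Subtype.ext
      simp only [schemeHomOverComp_coe, bY, η, pullback.lift_snd_assoc, hβ]
    rw [mY, L.mul_natural _ _ _ hη, ha, hb, ← L.mul_natural _ _ _ rfl, xK_mul_vK]
  have h2 := congrArg (fun φ => φ.1 (IsLocalRing.closedPoint κz)) h1
  simp only [schemeHomOverComp_coe, Scheme.Hom.comp_apply, gK] at h2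
  refine ⟨_, h2.trans ?_⟩
  congr 1
  exact Scheme.fromSpecResidueField_apply j _

include L hc h0 in
/-- **Quasi-compactness of the identity component.** -/
theorem quasiCompact_of_groupLaw : QuasiCompact (U.ι ≫ p) := by
  rw [HasAffineProperty.iff_of_isAffine (P := @QuasiCompact)]
  obtain ⟨x⟩ : Nonempty (U : Scheme) := inferInstance
  obtain ⟨U', hU', hx, -⟩ := exists_isAffineOpen_mem_and_subset (X := (U : Scheme)) (x := x)
    (U := ⊤) trivial
  have hne : (U' : Set (U : Scheme)).Nonempty := ⟨x, hx⟩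
  have hneU' : Nonempty (U' : Scheme) := ⟨⟨x, hx⟩⟩
  have hU'int : IsIntegral (U' : Scheme) := isIntegral_of_isOpenImmersion U'.ι
  have hU'aff : IsAffine (U' : Scheme) := hU'
  have hYY : IsIntegral (YY p U U') := isIntegral_pullback (rU' p U U') (rU' p U U')
  have hYYaff : IsAffine (YY p U U') := inferInstance
  have hmem : ∀ y, (mY p L U U').1 y ∈ U := by
    obtain ⟨y₀, hy₀⟩ := exists_mY_eq p L U hc h0 U' hne x
    refine fun y => mem_of_isClopen _ U hc y₀ ?_ y
    rw [hy₀]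
    exact x.2
  have hsurj : Function.Surjective (liftU U (mY p L U U').1 hmem) := by
    intro j
    obtain ⟨y, hy⟩ := exists_mY_eq p L U hc h0 U' hne j
    refine ⟨y, ?_⟩
    apply U.ι.isOpenEmbedding.injective
    rw [← Scheme.Hom.comp_apply, liftU_ι]
    exact hy
  exact hsurj.compactSpace (liftU U (mY p L U U').1 hmem).continuous

end Final

end Fermat.Agent.JNa

end
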